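import Fermat.Agent.S15.Outer.NP.Defs
import Fermat.Agent.GAL.Igusa.CuspEmb

/-!
# S15 / OUTER, block PHI, leaf PHI-BASE: the shape of the modular equation from the factorisation of `Φ` over `K((y))`
-/

set_option autoImplicit false

noncomputable section

namespace Fermat.Agent.S15.Outer.PhiBase

open ModularCurve Fermat.Agent.S28 Polynomial

variable {K : Type} [Field K]

/-- all coefficients of index `< n` vanish. -/
def Bd (n : ℤ) (f : LaurentSeries K) : Prop := ∀ m < n, f.coeff m = 0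

/-- `f = a t^n + higher terms`. -/
def Lead (n : ℤ) (a : K) (f : LaurentSeries K) : Prop := Bd n f ∧ f.coeff n = a

theorem Bd.mono {n m : ℤ} {f : LaurentSeries K} (h : Bd n f) (hmn : m ≤ n) : Bd m f :=
  fun k hk => h k (lt_of_lt_of_le hk hmn)

theorem Bd.zero (n : ℤ) : Bd n (0 : LaurentSeries K) := fun _ _ => HahnSeries.coeff_zero

theorem Bd.add {n : ℤ} {f g : LaurentSeries K} (hf : Bd n f) (hg : Bd n g) : Bd n (f + g) :=
  fun m hm => by rw [HahnSeries.coeff_add, hf m hm, hg m hm, add_zero]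

theorem Bd.neg {n : ℤ} {f : LaurentSeries K} (hf : Bd n f) : Bd n (-f) :=
  fun m hm => by rw [HahnSeries.coeff_neg, hf m hm, neg_zero]

theorem Bd.sub {n : ℤ} {f g : LaurentSeries K} (hf : Bd n f) (hg : Bd n g) : Bd n (f - g) := by
  rw [sub_eq_add_neg]
  exact hf.add hg.neg

theorem Bd.sum {ι : Type*} {n : ℤ} (s : Finset ι) (f : ι → LaurentSeries K)
    (h : ∀ i ∈ s, Bd n (f i)) : Bd n (∑ i ∈ s, f i) := by
  classical
  induction s using Finset.induction_on with
  | empty => rw [Finset.sum_empty]; exact Bd.zero n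
  | insert a s ha ih =>
    rw [Finset.sum_insert ha]
    exact (h a (Finset.mem_insert_self _ _)).add (ih fun i hi => h i (Finset.mem_insert_of_mem hi))

theorem Lead.mul {n m : ℤ} {a b : K} {f g : LaurentSeries K} (hf : Lead n a f) (hg : Lead m b g) :
    Lead (n + m) (a * b) (f * g) := by
  have key : ∀ i j : ℤ, i ∈ f.support → j ∈ g.support → n ≤ i ∧ m ≤ j := by
    intro i j hi hj
    refine ⟨?_, ?_⟩
    · by_contra hlt
      exact hi (hf.1 i (not_le.1 hlt))
    · by_contra hlt
      exact hj (hg.1 j (not_le.1 hlt))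
  constructor
  · intro k hk
    rw [HahnSeries.coeff_mul]
    apply Finset.sum_eq_zero
    rintro ⟨i, j⟩ hij
    rw [Finset.mem_antidiagonal] at hij
    obtain ⟨hi, hj, hsum⟩ := hij
    obtain ⟨h1, h2⟩ := key i j hi hj
    simp only at hsum
    omega
  · rw [HahnSeries.coeff_mul, Finset.sum_eq_single (n, m)]
    · rw [hf.2, hg.2]
    · rintro ⟨i, j⟩ hij hne
      rw [Finset.mem_antidiagonal] at hij
      obtain ⟨hi, hj, hsum⟩ := hij
      obtain ⟨h1, h2⟩ := key i j hi hj
      simp only at hsum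
      exfalso
      apply hne
      have e1 : i = n := by omega
      have e2 : j = m := by omega
      rw [e1, e2]
    · intro hnot
      rw [Finset.mem_antidiagonal] at hnot
      by_cases h1 : f.coeff n = 0
      · rw [h1, zero_mul]
      · by_cases h2 : g.coeff m = 0
        · rw [h2, mul_zero]
        · exact absurd ⟨h1, h2, rfl⟩ hnot

theorem Bd.mul {n m : ℤ} {f g : LaurentSeries K} (hf : Bd n f) (hg : Bd m g) :
    Bd (n + m) (f * g) := (Lead.mul ⟨hf, rfl⟩ ⟨hg, rfl⟩).1

theorem Lead.add_bd {n : ℤ} {a : K} {f g : LaurentSeries K} (hf : Lead n a f)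
    (hg : Bd (n + 1) g) : Lead n a (f + g) :=
  ⟨hf.1.add (hg.mono (by omega)), by rw [HahnSeries.coeff_add, hf.2, hg n (by omega), add_zero]⟩

theorem Lead.neg {n : ℤ} {a : K} {f : LaurentSeries K} (hf : Lead n a f) : Lead n (-a) (-f) :=
  ⟨hf.1.neg, by rw [HahnSeries.coeff_neg, hf.2]⟩

theorem Lead.C (a : K) : Lead 0 a (HahnSeries.C a : LaurentSeries K) := by
  refine ⟨fun m hm => ?_, ?_⟩
  · rw [HahnSeries.C_apply, HahnSeries.coeff_single_of_ne hm.ne]
  · rw [HahnSeries.C_apply, HahnSeries.coeff_single_same]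

theorem Lead.one : Lead 0 1 (1 : LaurentSeries K) := by
  have h := Lead.C (1 : K)
  rwa [map_one] at h

theorem Lead.intCast (c : ℤ) : Lead 0 (c : K) ((c : ℤ) : LaurentSeries K) := by
  have h := Lead.C ((c : ℤ) : K)
  rwa [map_intCast] at h

theorem Lead.pow {n : ℤ} {a : K} {f : LaurentSeries K} (hf : Lead n a f) (k : ℕ) :
    Lead (k * n) (a ^ k) (f ^ k) := by
  induction k with
  | zero =>
    rw [pow_zero, pow_zero, Nat.cast_zero, zero_mul]
    exact Lead.one
  | succ k ih =>
    rw [pow_succ, pow_succ]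
    have h := ih.mul hf
    have e : ((k + 1 : ℕ) : ℤ) * n = k * n + n := by push_cast; ring
    rwa [e]

theorem Lead.prod {ι : Type*} (s : Finset ι) (n : ι → ℤ) (a : ι → K) (f : ι → LaurentSeries K)
    (h : ∀ i ∈ s, Lead (n i) (a i) (f i)) :
    Lead (∑ i ∈ s, n i) (∏ i ∈ s, a i) (∏ i ∈ s, f i) := by
  classical
  induction s using Finset.induction_on with
  | empty =>
    rw [Finset.sum_empty, Finset.prod_empty, Finset.prod_empty]
    exact Lead.one
  | insert b s hb ih =>
    rw [Finset.sum_insert hb, Finset.prod_insert hb, Finset.prod_insert hb]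
    exact (h b (Finset.mem_insert_self _ _)).mul (ih fun i hi => h i (Finset.mem_insert_of_mem hi))

theorem Lead.unique {n : ℤ} {a b : K} {f : LaurentSeries K} (h : Lead n a f) (h' : Lead n b f) :
    a = b := by rw [← h.2, h'.2]

theorem lead_j : Lead (-1) 1 (jqModC K) :=
  ⟨fun _ hm => coeff_jqModC_of_lt K hm, coeff_jqModC_neg_one K⟩

theorem Lead.qExpand (e : ℕ) [NeZero e] {n : ℤ} {a : K} {f : LaurentSeries K} (hf : Lead n a f) :
    Lead ((e : ℤ) * n) a (qExpand K e f) := by
  have he : (0 : ℤ) < e := by exact_mod_cast NeZero.pos e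
  refine ⟨fun m hm => ?_, ?_⟩
  · by_cases hd : (e : ℤ) ∣ m
    · obtain ⟨m', rfl⟩ := hd
      rw [qExpand_coeff_mul]
      exact hf.1 m' (lt_of_mul_lt_mul_left hm he.le)
    · exact qExpand_coeff_of_not_dvd e f hd
  · rw [qExpand_coeff_mul, hf.2]

theorem Lead.twist (c : Kˣ) {n : ℤ} {a : K} {f : LaurentSeries K} (hf : Lead n a f) :
    Lead n (((c ^ n : Kˣ) : K) * a) (twist c f) :=
  ⟨fun m hm => by rw [twist_coeff, hf.1 m hm, mul_zero], by rw [twist_coeff, hf.2]⟩

section

variable (e : ℕ) [NeZero e]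

theorem lead_jBase : Lead (-(e : ℤ)) 1 (jBase e K) := by
  have h := (lead_j (K := K)).qExpand e
  rwa [mul_neg, mul_one] at h

theorem lead_rootInf : Lead (-((e : ℤ) * e)) 1 (rootInf e K) := by
  have h := (lead_jBase (K := K) e).qExpand e
  rwa [mul_neg] at h

omit [NeZero e] in
theorem lead_rootFin (ζ : Kˣ) (b : ℕ) :
    Lead (-1) (((ζ ^ b)⁻¹ : Kˣ) : K) (rootFin ζ b) := by
  have h := (lead_j (K := K)).twist (ζ ^ b)
  rwa [mul_one, zpow_neg_one] at h

theorem evBase_eq_sum (P : ℤ[X]) (d : ℕ) (hd : P.natDegree < d) :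
    evBase e K P = ∑ i ∈ Finset.range d, ((P.coeff i : ℤ) : LaurentSeries K) * jBase e K ^ i := by
  rw [evBase, coe_eval₂RingHom, eval₂_eq_sum_range' _ hd]
  rfl

theorem lead_evBase (P : ℤ[X]) (d : ℕ) (hd : P.natDegree ≤ d) :
    Lead (-((e : ℤ) * d)) ((P.coeff d : ℤ) : K) (evBase e K P) := by
  have he : (1 : ℤ) ≤ e := by exact_mod_cast NeZero.pos e
  rw [evBase_eq_sum e P (d + 1) (Nat.lt_succ_of_le hd), Finset.sum_range_succ, add_comm]
  have hterm : ∀ i : ℕ, Lead (-((e : ℤ) * i)) ((P.coeff i : ℤ) : K)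
      (((P.coeff i : ℤ) : LaurentSeries K) * jBase e K ^ i) := by
    intro i
    have h := (Lead.intCast (K := K) (P.coeff i)).mul ((lead_jBase (K := K) e).pow i)
    have e1 : (0 : ℤ) + (i : ℤ) * -(e : ℤ) = -((e : ℤ) * i) := by ring
    rwa [e1, one_pow, mul_one] at h
  refine (hterm d).add_bd (Bd.sum _ _ fun i hi => ?_)
  refine (hterm i).1.mono ?_
  have hi' : (i : ℤ) + 1 ≤ d := by exact_mod_cast Finset.mem_range.1 hi
  nlinarith

theorem natDegree_le_of_bd [CharZero K] (P : ℤ[X]) (n : ℤ) (h : Bd (-n) (evBase e K P))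
    (hP : P ≠ 0) : (e : ℤ) * P.natDegree ≤ n := by
  by_contra hlt
  have h1 := lead_evBase (K := K) e P P.natDegree le_rfl
  have h2 := h (-((e : ℤ) * P.natDegree)) (by omega)
  rw [h1.2] at h2
  exact hP (leadingCoeff_eq_zero.1 (Int.cast_eq_zero.1 h2))

end

theorem bd_coeff_prod {ι : Type*} (s : Finset ι) (r : ι → LaurentSeries K)
    (hr : ∀ i ∈ s, Bd (-1) (r i)) (k : ℕ) :
    Bd ((k : ℤ) - s.card) ((∏ i ∈ s, (X - C (r i))).coeff k) := by
  classical
  induction s using Finset.induction_on generalizing k with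
  | empty =>
    rw [Finset.prod_empty, Finset.card_empty, coeff_one]
    split_ifs with h
    · subst h
      exact Lead.one.1.mono (by simp)
    · exact Bd.zero _
  | insert a s ha ih =>
    rw [Finset.prod_insert ha, Finset.card_insert_of_notMem ha, sub_mul, coeff_sub, coeff_C_mul]
    have hra := hr a (Finset.mem_insert_self _ _)
    have ih' := fun k => ih (fun i hi => hr i (Finset.mem_insert_of_mem hi)) k
    refine Bd.sub ?_ ?_
    · cases k with
      | zero =>
        rw [coeff_X_mul_zero]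
        exact Bd.zero _
      | succ k =>
        rw [coeff_X_mul]
        exact (ih' k).mono (by push_cast; omega)
    · exact (hra.mul (ih' k)).mono (by push_cast; omega)

theorem sum_split {L : Type*} [CommRing L] (e : ℕ) (f g : ℕ → ℕ → L)
    (h : ∀ i k, ¬(i = e ∧ k = e) → f i k = g i k) (hg : g e e = 0) :
    ∑ i ∈ Finset.range (e + 1), ∑ k ∈ Finset.range (e + 1), f i k =
      f e e + ∑ i ∈ Finset.range (e + 1), ∑ k ∈ Finset.range (e + 1), g i k := by
  simp only [Finset.sum_range_succ]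
  rw [hg, add_zero]
  have e1 : ∑ i ∈ Finset.range e, (∑ k ∈ Finset.range e, f i k + f i e) =
      ∑ i ∈ Finset.range e, (∑ k ∈ Finset.range e, g i k + g i e) :=
    Finset.sum_congr rfl fun i hi => by
      have hi' := (Finset.mem_range.1 hi).ne
      rw [h i e (fun hh => hi' hh.1)]
      congr 1
      exact Finset.sum_congr rfl fun k _ => h i k (fun hh => hi' hh.1)
  have e2 : ∑ k ∈ Finset.range e, f e k = ∑ k ∈ Finset.range e, g e k :=
    Finset.sum_congr rfl fun k hk => h e k (fun hh => (Finset.mem_range.1 hk).ne hh.2)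
  rw [e1, e2]
  ring

/-- **PHI-BASE**, for a field of characteristic `0` with a primitive `e`-th root of unity. -/
theorem modRel_of_bdata [CharZero K] (e : ℕ) [NeZero e] (he : e.Prime) {Φ U G : ℤ[X][X]} {m : ℕ}
    {c : ℤ} (hB : BData e Φ U G m c) (ζ : Kˣ) (hζ : IsPrimitiveRoot ζ e) :
    ModRel e (jBase e K) (rootInf e K) := by
  obtain ⟨hfac, -, -⟩ := hB.2.2.2.2.2.2 K ζ hζ
  have hmonic : Φ.Monic := hB.2.1
  have he2 : (2 : ℤ) ≤ e := by exact_mod_cast he.two_le
  set Q : (LaurentSeries K)[X] := ∏ b ∈ Finset.range e, (X - C (rootFin ζ b)) with hQ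
  have hQmonic : Q.Monic := monic_prod_of_monic _ _ fun b _ => monic_X_sub_C _
  have hQdeg : Q.natDegree = e := by
    rw [hQ, natDegree_prod_of_monic _ _ (fun b _ => monic_X_sub_C _)]
    simp
  have hcoeff : ∀ k, evBase e K (Φ.coeff k) = ((X - C (rootInf e K)) * Q).coeff k := fun k => by
    rw [← hfac, coeff_map]
  have hQbd : ∀ k : ℕ, Bd ((k : ℤ) - e) (Q.coeff k) := fun k => by
    have h := bd_coeff_prod (Finset.range e) (fun b => rootFin ζ b)
      (fun b _ => (lead_rootFin ζ b).1) k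
    rwa [Finset.card_range] at h
  have hdeg : Φ.natDegree = e + 1 := by
    rw [← hmonic.natDegree_map (evBase e K), hfac, (monic_X_sub_C _).natDegree_mul hQmonic,
      natDegree_X_sub_C, hQdeg, add_comm]
  have htop : Φ.coeff (e + 1) = 1 := by
    rw [← hdeg]
    exact hmonic
  have hc0 : evBase e K (Φ.coeff 0) = -(rootInf e K * Q.coeff 0) := by
    rw [hcoeff, sub_mul, coeff_sub, coeff_C_mul, coeff_X_mul_zero, zero_sub]
  have hcs : ∀ k, evBase e K (Φ.coeff (k + 1)) = Q.coeff k - rootInf e K * Q.coeff (k + 1) := by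
    intro k
    rw [hcoeff, sub_mul, coeff_sub, coeff_C_mul, coeff_X_mul]
  have hy := lead_rootInf (K := K) e
  -- degree bounds
  have hdegs : ∀ k, (Φ.coeff (k + 1)).natDegree ≤ e := by
    intro k
    by_cases hP : Φ.coeff (k + 1) = 0
    · rw [hP, natDegree_zero]
      exact Nat.zero_le _
    have hbd : Bd (-((e : ℤ) * e + e - (k + 1))) (evBase e K (Φ.coeff (k + 1))) := by
      rw [hcs]
      refine Bd.sub ((hQbd k).mono ?_) ((hy.1.mul (hQbd (k + 1))).mono ?_)
      · nlinarith
      · push_cast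
        omega
    have h1 := natDegree_le_of_bd e _ _ hbd hP
    have h2 : (e : ℤ) * (Φ.coeff (k + 1)).natDegree < e * (e + 1) := by nlinarith
    have h3 : ((Φ.coeff (k + 1)).natDegree : ℤ) < e + 1 := lt_of_mul_lt_mul_left h2 (by omega)
    omega
  have hdeg0 : (Φ.coeff 0).natDegree ≤ e + 1 := by
    by_cases hP : Φ.coeff 0 = 0
    · rw [hP, natDegree_zero]
      exact Nat.zero_le _
    have hbd : Bd (-((e : ℤ) * e + e)) (evBase e K (Φ.coeff 0)) := by
      rw [hc0]
      refine ((hy.1.mul (hQbd 0)).neg).mono ?_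
      push_cast
      omega
    have h1 := natDegree_le_of_bd e _ _ hbd hP
    have h2 : (e : ℤ) * (Φ.coeff 0).natDegree ≤ e * (e + 1) := by nlinarith
    have h3 : ((Φ.coeff 0).natDegree : ℤ) ≤ e + 1 := le_of_mul_le_mul_left h2 (by omega)
    omega
  have hdegall : ∀ k, (Φ.coeff k).natDegree < e + 2 := by
    intro k
    cases k with
    | zero => omega
    | succ k => have := hdegs k; omega
  -- the coefficient `u1`
  have hu1 : (Φ.coeff e).coeff e = -1 := by
    obtain ⟨e', he'⟩ : ∃ e', e = e' + 1 := ⟨e - 1, (Nat.sub_add_cancel he.one_le).symm⟩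
    have h1 : Lead (-((e : ℤ) * e)) (((Φ.coeff e).coeff e : ℤ) : K) (evBase e K (Φ.coeff e)) :=
      lead_evBase e _ e (by have := hdegs e'; rwa [← he'] at this)
    have h2 : evBase e K (Φ.coeff e) = -rootInf e K + Q.coeff e' := by
      have h3 := hcs e'
      rw [← he'] at h3
      have h4 : Q.coeff e = 1 := by
        have := hQmonic.coeff_natDegree
        rwa [hQdeg] at this
      rw [h3, h4, mul_one]
      ring
    have h5 : Lead (-((e : ℤ) * e)) (-1) (evBase e K (Φ.coeff e)) := by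
      rw [h2]
      refine hy.neg.add_bd ((hQbd e').mono ?_)
      have : (e : ℤ) = e' + 1 := by exact_mod_cast he'
      nlinarith
    have h6 := h1.unique h5
    exact_mod_cast h6
  -- the coefficient `u0`
  have hu0 : IsUnit ((Φ.coeff 0).coeff (e + 1)) := by
    have h1 : Lead (-((e : ℤ) * (e + 1 : ℕ))) (((Φ.coeff 0).coeff (e + 1) : ℤ) : K)
        (evBase e K (Φ.coeff 0)) := lead_evBase e _ (e + 1) hdeg0
    have h2 : Q.coeff 0 = ∏ b ∈ Finset.range e, -rootFin ζ b := by
      rw [coeff_zero_eq_eval_zero, hQ, eval_prod]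
      exact Finset.prod_congr rfl fun b _ => by rw [eval_sub, eval_X, eval_C, zero_sub]
    have h3 := Lead.prod (Finset.range e) (fun _ => (-1 : ℤ))
      (fun b => -(((ζ ^ b)⁻¹ : Kˣ) : K)) (fun b => -rootFin ζ b)
      (fun b _ => (lead_rootFin ζ b).neg)
    rw [← h2] at h3
    have h4 := (hy.mul h3).neg
    rw [← hc0] at h4
    have e1 : -((e : ℤ) * e) + ∑ _b ∈ Finset.range e, (-1 : ℤ) = -((e : ℤ) * (e + 1 : ℕ)) := by
      rw [Finset.sum_const, Finset.card_range]
      push_cast
      simp only [nsmul_eq_mul]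
      ring
    rw [e1] at h4
    have h5 := h1.unique h4
    have h6 : (((Φ.coeff 0).coeff (e + 1) : ℤ) : K) ^ (2 * e) = 1 := by
      rw [h5, one_mul, pow_mul, neg_sq, ← pow_mul, ← Finset.prod_pow]
      refine Finset.prod_eq_one fun b _ => ?_
      rw [pow_mul, neg_sq, ← pow_mul, mul_comm, pow_mul, ← Units.val_pow_eq_pow_val, inv_pow,
        ← pow_mul, mul_comm, pow_mul, hζ.pow_eq_one, one_pow, inv_one, Units.val_one, one_pow]
    have h7 : ((Φ.coeff 0).coeff (e + 1)) ^ (2 * e) = 1 := by exact_mod_cast h6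
    exact IsUnit.of_pow_eq_one h7 (by have := he.pos; omega)
  -- the relation
  have hroot : (Φ.map (evBase e K)).eval (rootInf e K) = 0 := by
    rw [hfac, eval_mul, eval_sub, eval_X, eval_C, sub_self, zero_mul]
  have hexp : (Φ.map (evBase e K)).eval (rootInf e K) =
      ∑ k ∈ Finset.range (e + 2), evBase e K (Φ.coeff k) * rootInf e K ^ k := by
    rw [eval_eq_sum_range' (n := e + 2) (by rw [hmonic.natDegree_map, hdeg]; omega)]
    simp only [coeff_map]
  have stepA : ∑ k ∈ Finset.range (e + 2), evBase e K (Φ.coeff k) * rootInf e K ^ k =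
      ∑ k ∈ Finset.range (e + 1), evBase e K (Φ.coeff k) * rootInf e K ^ k
        + rootInf e K ^ (e + 1) := by
    rw [Finset.sum_range_succ, htop, map_one, one_mul]
  have hterm : ∀ k ∈ Finset.range (e + 1), evBase e K (Φ.coeff k) * rootInf e K ^ k =
      (((Φ.coeff k).coeff (e + 1) : ℤ) : LaurentSeries K) * jBase e K ^ (e + 1) * rootInf e K ^ k +
      ∑ i ∈ Finset.range (e + 1), (((Φ.coeff k).coeff i : ℤ) : LaurentSeries K) *
        (jBase e K ^ i * rootInf e K ^ k) := by
    intro k _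
    rw [evBase_eq_sum e _ (e + 2) (hdegall k), Finset.sum_range_succ, add_mul, Finset.sum_mul,
      add_comm]
    congr 1
    exact Finset.sum_congr rfl fun i _ => by ring
  have stepB : ∑ k ∈ Finset.range (e + 1), evBase e K (Φ.coeff k) * rootInf e K ^ k =
      (((Φ.coeff 0).coeff (e + 1) : ℤ) : LaurentSeries K) * jBase e K ^ (e + 1) +
      ∑ i ∈ Finset.range (e + 1), ∑ k ∈ Finset.range (e + 1),
        (((Φ.coeff k).coeff i : ℤ) : LaurentSeries K) * (jBase e K ^ i * rootInf e K ^ k) := by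
    rw [Finset.sum_congr rfl hterm, Finset.sum_add_distrib, Finset.sum_comm]
    congr 1
    rw [Finset.sum_range_succ', pow_zero, mul_one, Finset.sum_eq_zero, zero_add]
    intro k _
    rw [coeff_eq_zero_of_natDegree_lt (Nat.lt_succ_of_le (hdegs k)), Int.cast_zero, zero_mul,
      zero_mul]
  have stepC := sum_split e
    (fun i k => (((Φ.coeff k).coeff i : ℤ) : LaurentSeries K) * (jBase e K ^ i * rootInf e K ^ k))
    (fun i k => (((if i = e ∧ k = e then 0 else (Φ.coeff k).coeff i : ℤ) : ℤ) : LaurentSeries K) *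
      (jBase e K ^ i * rootInf e K ^ k))
    (fun i k hik => by simp only [if_neg hik])
    (by simp)
  refine ⟨(Φ.coeff 0).coeff (e + 1), (Φ.coeff e).coeff e,
    fun i k => if i = e ∧ k = e then 0 else (Φ.coeff k).coeff i, hu0,
    Int.isUnit_iff.2 (Or.inr hu1), if_pos ⟨rfl, rfl⟩, ?_⟩
  rw [← hroot, hexp, stepA, stepB, stepC]
  ring

end Fermat.Agent.S15.Outer.PhiBase
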